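import Mathlib

set_option autoImplicit false

/-!
# Lib/Cyclo, part 6: a ring homomorphism `ℤ_[p] →+* S` for an `I`-adically complete ring `S`
with `p ∈ I`
-/

namespace Fermat.Agent.Cyclo

open Ideal

variable (p : ℕ) [Fact p.Prime] {S : Type*} [CommRing S] (I : Ideal S)

theorem natCast_pow_quot_eq_zero (hp : (p : S) ∈ I) (n : ℕ) :
    (((p ^ n : ℕ) : S ⧸ I ^ n)) = 0 := by
  have h1 : ((p ^ n : ℕ) : S ⧸ I ^ n) = Ideal.Quotient.mk (I ^ n) ((p : S) ^ n) := by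
    push_cast
    rfl
  rw [h1, Ideal.Quotient.eq_zero_iff_mem]
  exact Ideal.pow_mem_pow hp n

/-- the level `n` map `ℤ_[p] → ZMod (p ^ n) → S ⧸ I ^ n` -/
noncomputable def padicToQuot (hp : (p : S) ∈ I) (n : ℕ) : ℤ_[p] →+* S ⧸ I ^ n :=
  haveI : CharP (S ⧸ I ^ n) (ringChar (S ⧸ I ^ n)) := ringChar.charP _
  (ZMod.castHom (ringChar.dvd (natCast_pow_quot_eq_zero p I hp n)) (S ⧸ I ^ n)).comp
    (PadicInt.toZModPow n)

theorem padicToQuot_compat (hp : (p : S) ∈ I) {m n : ℕ} (hle : m ≤ n) :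
    (Ideal.Quotient.factorPow I hle).comp (padicToQuot p I hp n) = padicToQuot p I hp m := by
  haveI : CharP (S ⧸ I ^ n) (ringChar (S ⧸ I ^ n)) := ringChar.charP _
  haveI : CharP (S ⧸ I ^ m) (ringChar (S ⧸ I ^ m)) := ringChar.charP _
  unfold padicToQuot
  rw [← PadicInt.zmod_cast_comp_toZModPow m n hle, ← RingHom.comp_assoc, ← RingHom.comp_assoc]
  congr 1
  exact RingHom.ext_zmod _ _

/-- A ring homomorphism `ℤ_[p] →+* S` for an `I`-adically complete ring `S` with `p ∈ I`. -/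
noncomputable def padicToComplete [IsAdicComplete I S] (hp : (p : S) ∈ I) : ℤ_[p] →+* S :=
  IsAdicComplete.liftRingHom I (padicToQuot p I hp) (fun hle => padicToQuot_compat p I hp hle)

theorem padicToComplete_mem [IsAdicComplete I S] (hp : (p : S) ∈ I) (k : ℕ) {x : ℤ_[p]}
    (hx : x ∈ Ideal.span {(p : ℤ_[p]) ^ k}) : padicToComplete p I hp x ∈ I ^ k := by
  obtain ⟨y, rfl⟩ := Ideal.mem_span_singleton'.mp hx
  rw [map_mul, map_pow, map_natCast]
  exact Ideal.mul_mem_left _ _ (Ideal.pow_mem_pow hp k)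

end Fermat.Agent.Cyclo
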