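import Fermat.Agent.Lib.Cyclo.PadicChar
import Fermat.Agent.Lib.Cyclo.PadicToComplete
import Fermat.Agent.S30.Iface

set_option autoImplicit false

/-!
# Lib/Cyclo, part 7: `CycloCharData p 𝒪` (work package W2 of the S30 core)

For a local ring `𝒪`, complete for the topology of its maximal ideal, with `p ∈ 𝔪`, the
`p`-adic cyclotomic character `G_ℚ → ℤ_[p]ˣ → 𝒪ˣ` has the four properties of
`Fermat.Agent.S30.CycloCharData`.
-/

namespace Fermat.Agent.Cyclo

open IsLocalRing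

variable (p : ℕ) [Fact p.Prime] (𝒪 : Type) [CommRing 𝒪] [IsLocalRing 𝒪]
  [IsAdicComplete (maximalIdeal 𝒪) 𝒪]

/-- The `p`-adic cyclotomic character with values in `𝒪ˣ`. -/
noncomputable def epsO (hp : (p : 𝒪) ∈ maximalIdeal 𝒪) : GQ →* 𝒪ˣ :=
  (Units.map ((padicToComplete p (maximalIdeal 𝒪) hp : ℤ_[p] →+* 𝒪) : ℤ_[p] →* 𝒪)).comp
    (padicChar p)

theorem epsO_apply (hp : (p : 𝒪) ∈ maximalIdeal 𝒪) (σ : GQ) :
    ((epsO p 𝒪 hp σ : 𝒪ˣ) : 𝒪)
      = padicToComplete p (maximalIdeal 𝒪) hp ((padicChar p σ : ℤ_[p]ˣ) : ℤ_[p]) := rfl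

/-- **W2**: the cyclotomic character data for the S30 core. -/
noncomputable def cycloCharData (hp : (p : 𝒪) ∈ maximalIdeal 𝒪) :
    Fermat.Agent.S30.CycloCharData p 𝒪 where
  ε := epsO p 𝒪 hp
  frob := by
    intro ℓ hℓ hℓp A hA σ hσ
    rw [epsO_apply, padicChar_frobenius p hℓ hℓp A hA σ hσ, map_natCast]
  inertia := by
    intro ℓ hℓ hℓp A hA σ hσ
    unfold epsO
    rw [MonoidHom.comp_apply, padicChar_inertia p hℓ hℓp A hA σ hσ, map_one]
  level := by
    intro n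
    obtain ⟨L, hL, -, h⟩ := padicChar_level p n
    refine ⟨L, hL, fun σ hσ => ?_⟩
    have := padicToComplete_mem p (maximalIdeal 𝒪) hp n (h σ hσ)
    rwa [map_sub, map_one, ← epsO_apply] at this
  conj := by
    unfold epsO
    rw [MonoidHom.comp_apply, padicChar_complexConjugation p]
    apply Units.ext
    simp

theorem nonempty_cycloCharData (hp : (p : 𝒪) ∈ maximalIdeal 𝒪) :
    Nonempty (Fermat.Agent.S30.CycloCharData p 𝒪) := ⟨cycloCharData p 𝒪 hp⟩

end Fermat.Agent.Cyclo
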