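import Fermat.Agent.Lib.Cyclo.ModCharGlobal

set_option autoImplicit false

/-!
# Lib/Cyclo, part 4: the mod `p` cyclotomic character with values in a field of characteristic `p`

`omegaK p k : G_ℚ →* kˣ` with `omegaK_frobenius`, `omegaK_inertia`, `omegaK_finiteLevel`,
`omegaK_complexConjugation` (shape fixed with helper30 for the S29 assembly).
-/

namespace Fermat.Agent.Cyclo

open ValuationSubring

variable (p : ℕ) [Fact p.Prime] (k : Type) [Field k] [CharP k p]

theorem neZero_of_fact_prime : NeZero p := ⟨(Fact.out : p.Prime).ne_zero⟩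

/-- The mod `p` cyclotomic character with values in `kˣ`, `k` a field of characteristic `p`. -/
noncomputable def omegaK : GQ →* kˣ :=
  have : NeZero p := neZero_of_fact_prime p
  (Units.map ((ZMod.castHom (dvd_refl p) k : ZMod p →+* k) : ZMod p →* k)).comp (modChar p)

theorem omegaK_apply (σ : GQ) :
    haveI : NeZero p := neZero_of_fact_prime p
    ((omegaK p k σ : kˣ) : k) = ZMod.castHom (dvd_refl p) k ((modChar p σ : (ZMod p)ˣ) : ZMod p) :=
  rfl

theorem not_dvd_of_prime_ne {ℓ : ℕ} (hℓ : ℓ.Prime) (hℓp : ℓ ≠ p) : ¬ ℓ ∣ p := fun h =>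
  hℓp ((Nat.prime_dvd_prime_iff_eq hℓ (Fact.out : p.Prime)).mp h)

theorem omegaK_frobenius {ℓ : ℕ} (hℓ : ℓ.Prime) (hℓp : ℓ ≠ p)
    (A : ValuationSubring (AlgebraicClosure ℚ)) (hA : A.LiesOverPrime ℓ)
    (σ : GQ) (hσ : A.IsFrobeniusAt σ ℓ) : ((omegaK p k σ : kˣ) : k) = (ℓ : k) := by
  have : NeZero p := neZero_of_fact_prime p
  rw [omegaK_apply, modChar_frobenius p hℓ (not_dvd_of_prime_ne p hℓ hℓp) A hA σ hσ, map_natCast]

theorem omegaK_inertia {ℓ : ℕ} (hℓ : ℓ.Prime) (hℓp : ℓ ≠ p)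
    (A : ValuationSubring (AlgebraicClosure ℚ)) (hA : A.LiesOverPrime ℓ)
    (σ : GQ) (hσ : σ ∈ A.inertiaSubgroupIn ℚ) : omegaK p k σ = 1 := by
  have : NeZero p := neZero_of_fact_prime p
  unfold omegaK
  rw [MonoidHom.comp_apply, modChar_inertia p hℓ (not_dvd_of_prime_ne p hℓ hℓp) A hA σ hσ,
    map_one]

theorem omegaK_eq_one_of_fix (σ : GQ)
    (h : haveI : NeZero p := neZero_of_fact_prime p; ∀ x ∈ cycloField p, σ x = x) :
    omegaK p k σ = 1 := by
  have : NeZero p := neZero_of_fact_prime p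
  unfold omegaK
  rw [MonoidHom.comp_apply, modChar_eq_one_of_fix_cycloField p σ h, map_one]

theorem omegaK_finiteLevel : ∃ L : IntermediateField ℚ (AlgebraicClosure ℚ),
    FiniteDimensional ℚ L ∧ ∀ σ : GQ, (∀ x ∈ L, σ x = x) → omegaK p k σ = 1 :=
  have : NeZero p := neZero_of_fact_prime p
  ⟨cycloField p, inferInstance, fun σ h => omegaK_eq_one_of_fix p k σ h⟩

theorem omegaK_finiteLevel_normal : ∃ L : IntermediateField ℚ (AlgebraicClosure ℚ),
    FiniteDimensional ℚ L ∧ Normal ℚ L ∧ ∀ σ : GQ, (∀ x ∈ L, σ x = x) → omegaK p k σ = 1 :=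
  have : NeZero p := neZero_of_fact_prime p
  ⟨cycloField p, inferInstance, inferInstance, fun σ h => omegaK_eq_one_of_fix p k σ h⟩

theorem omegaK_complexConjugation : omegaK p k complexConjugation = -1 := by
  have : NeZero p := neZero_of_fact_prime p
  unfold omegaK
  rw [MonoidHom.comp_apply, modChar_complexConjugation p]
  apply Units.ext
  simp

end Fermat.Agent.Cyclo
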