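import Fermat.Agent.Lib.Cyclo.ModCharGlobal

set_option autoImplicit false

/-!
# Lib/Cyclo, part 5: the `p`-adic cyclotomic character of `G_ℚ`

`padicChar p : G_ℚ →* ℤ_[p]ˣ` (Mathlib's `cyclotomicCharacter` for `ℚ̄`), with
* `toZModPow_padicChar`: its reduction mod `p ^ k` is `modChar (p ^ k)`;
* `padicChar_frobenius`: value `ℓ` at a Frobenius element at `ℓ ≠ p`;
* `padicChar_inertia`: trivial on inertia at `ℓ ≠ p`;
* `padicChar_sub_one_mem`: `χ(σ) - 1 ∈ (p ^ k)` if `σ` fixes `ℚ(μ_{p^k})`;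
* `padicChar_complexConjugation`: `χ(c) = -1`.
-/

namespace Fermat.Agent.Cyclo

open ValuationSubring

variable (p : ℕ) [Fact p.Prime]

/-- The `p`-adic cyclotomic character of `G_ℚ`. -/
noncomputable def padicChar : GQ →* ℤ_[p]ˣ :=
  (cyclotomicCharacter Qb p).comp (MulSemiringAction.toRingAut GQ Qb)

theorem neZero_pow (k : ℕ) : NeZero (p ^ k) := ⟨pow_ne_zero k (Fact.out : p.Prime).ne_zero⟩

theorem toZModPow_padicChar (k : ℕ) (σ : GQ) :
    haveI : NeZero (p ^ k) := neZero_pow p k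
    PadicInt.toZModPow k ((padicChar p σ : ℤ_[p]ˣ) : ℤ_[p])
      = ((modChar (p ^ k) σ : (ZMod (p ^ k))ˣ) : ZMod (p ^ k)) := by
  haveI : NeZero (p ^ k) := neZero_pow p k
  exact cyclotomicCharacter.toZModPow p (MulSemiringAction.toRingAut GQ Qb σ)

theorem not_dvd_pow_of_prime_ne {ℓ : ℕ} (hℓ : ℓ.Prime) (hℓp : ℓ ≠ p) (k : ℕ) : ¬ ℓ ∣ p ^ k :=
  fun h => hℓp ((Nat.prime_dvd_prime_iff_eq hℓ (Fact.out : p.Prime)).mp (hℓ.dvd_of_dvd_pow h))

/-- **Value at Frobenius.** -/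
theorem padicChar_frobenius {ℓ : ℕ} (hℓ : ℓ.Prime) (hℓp : ℓ ≠ p)
    (A : ValuationSubring Qb) (hA : A.LiesOverPrime ℓ) (σ : GQ) (hσ : A.IsFrobeniusAt σ ℓ) :
    ((padicChar p σ : ℤ_[p]ˣ) : ℤ_[p]) = (ℓ : ℤ_[p]) := by
  rw [← PadicInt.ext_of_toZModPow]
  intro k
  haveI : NeZero (p ^ k) := neZero_pow p k
  rw [toZModPow_padicChar, map_natCast]
  exact modChar_frobenius (p ^ k) hℓ (not_dvd_pow_of_prime_ne p hℓ hℓp k) A hA σ hσ

/-- **Triviality on inertia.** -/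
theorem padicChar_inertia {ℓ : ℕ} (hℓ : ℓ.Prime) (hℓp : ℓ ≠ p)
    (A : ValuationSubring Qb) (hA : A.LiesOverPrime ℓ) (σ : GQ)
    (hσ : σ ∈ A.inertiaSubgroupIn ℚ) : padicChar p σ = 1 := by
  apply Units.ext
  rw [Units.val_one, ← PadicInt.ext_of_toZModPow]
  intro k
  haveI : NeZero (p ^ k) := neZero_pow p k
  rw [toZModPow_padicChar, map_one,
    modChar_inertia (p ^ k) hℓ (not_dvd_pow_of_prime_ne p hℓ hℓp k) A hA σ hσ, Units.val_one]

/-- **Complex conjugation.** -/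
theorem padicChar_complexConjugation : padicChar p complexConjugation = -1 := by
  apply Units.ext
  rw [Units.val_neg, Units.val_one, ← PadicInt.ext_of_toZModPow]
  intro k
  haveI : NeZero (p ^ k) := neZero_pow p k
  rw [toZModPow_padicChar, map_neg, map_one, modChar_complexConjugation (p ^ k), Units.val_neg,
    Units.val_one]

/-- **Level**: `χ(σ) ≡ 1 mod p ^ k` if `σ` fixes `ℚ(μ_{p^k})`. -/
theorem padicChar_sub_one_mem (k : ℕ) (σ : GQ)
    (h : haveI : NeZero (p ^ k) := neZero_pow p k; ∀ x ∈ cycloField (p ^ k), σ x = x) :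
    ((padicChar p σ : ℤ_[p]ˣ) : ℤ_[p]) - 1 ∈ Ideal.span {(p : ℤ_[p]) ^ k} := by
  haveI : NeZero (p ^ k) := neZero_pow p k
  rw [← PadicInt.ker_toZModPow, RingHom.mem_ker, map_sub, map_one, toZModPow_padicChar,
    modChar_eq_one_of_fix_cycloField (p ^ k) σ h, Units.val_one, sub_self]

theorem padicChar_level (k : ℕ) : ∃ L : IntermediateField ℚ Qb, FiniteDimensional ℚ L ∧
    Normal ℚ L ∧ ∀ σ : GQ, (∀ x ∈ L, σ x = x) →
      ((padicChar p σ : ℤ_[p]ˣ) : ℤ_[p]) - 1 ∈ Ideal.span {(p : ℤ_[p]) ^ k} :=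
  haveI : NeZero (p ^ k) := neZero_pow p k
  ⟨cycloField (p ^ k), inferInstance, inferInstance, fun σ h => padicChar_sub_one_mem p k σ h⟩

end Fermat.Agent.Cyclo
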